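import Mathlib
import Fermat.Prelude.Def_EllipticCurve_FrobeniusTrace
import Fermat.Prelude.Def_FLTPrelim_Ramification

set_option autoImplicit false

namespace Fermat.Agent.S54.H86

open Polynomial
open scoped Pointwise

theorem seidenberg_aux {R L : Type*} [CommRing R] [Field L] [Algebra R L]
    (hcl : ∀ y : L, IsIntegral R y → ∃ r : R, algebraMap R L r = y) (Q : Ideal R) (x : L) :
    ∀ (n : ℕ) (f : R[X]), f.natDegree ≤ n → aeval x f = 0 → (∃ i, f.coeff i ∉ Q) →
      (∃ s b : R, s ∉ Q ∧ x * algebraMap R L s = algebraMap R L b) ∨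
      (∃ s c : R, s ∉ Q ∧ algebraMap R L s = x * algebraMap R L c) := by
  intro n
  induction n with
  | zero =>
    intro f hdeg hf ⟨i, hi⟩
    left
    have hfC : f = C (f.coeff 0) := Polynomial.eq_C_of_natDegree_le_zero hdeg
    have h0 : algebraMap R L (f.coeff 0) = 0 := by
      rw [hfC] at hf; simpa using hf
    have hi0 : i = 0 := by
      by_contra hne
      apply hi
      rw [hfC, coeff_C, if_neg hne]
      exact Q.zero_mem
    subst hi0
    exact ⟨f.coeff 0, 0, hi, by rw [h0, mul_zero, map_zero]⟩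
  | succ n ih =>
    intro f hdeg hf ⟨i, hi⟩
    by_cases hlt : f.natDegree ≤ n
    · exact ih f hlt hf ⟨i, hi⟩
    have hdeg' : f.natDegree = n + 1 := by omega
    obtain ⟨b, hb⟩ := hcl _ (isIntegral_leadingCoeff_smul f x hf)
    rw [Algebra.smul_def] at hb
    by_cases ha : f.leadingCoeff ∈ Q
    swap
    · left; exact ⟨f.leadingCoeff, b, ha, by rw [hb, mul_comm]⟩
    by_cases hbQ : b ∈ Q
    swap
    · right; exact ⟨b, f.leadingCoeff, hbQ, by rw [hb, mul_comm]⟩
    have hg_deg : (f.eraseLead + C b * X ^ n).natDegree ≤ n := by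
      refine (natDegree_add_le _ _).trans (max_le ?_ ?_)
      · have := eraseLead_natDegree_le f
        omega
      · exact natDegree_C_mul_X_pow_le b n
    have hg_eval : aeval x (f.eraseLead + C b * X ^ n) = 0 := by
      have h1 : aeval x f = aeval x f.eraseLead + algebraMap R L f.leadingCoeff * x ^ (n + 1) := by
        conv_lhs => rw [← eraseLead_add_C_mul_X_pow f, hdeg']
        simp
      rw [hf] at h1
      have h2 : aeval x (f.eraseLead + C b * X ^ n)
          = aeval x f.eraseLead + algebraMap R L b * x ^ n := by simp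
      rw [h2, hb]
      rw [h1]
      ring
    have hg_coeff : ∃ j, (f.eraseLead + C b * X ^ n).coeff j ∉ Q := by
      have hi1 : i ≠ n + 1 := by
        rintro rfl
        apply hi
        rw [← hdeg']
        exact ha
      refine ⟨i, fun hmem => hi ?_⟩
      rw [coeff_add, eraseLead_coeff_of_ne i (by rw [hdeg']; exact hi1), coeff_C_mul_X_pow] at hmem
      split_ifs at hmem with hin
      · have := Q.sub_mem hmem hbQ
        simpa using this
      · simpa using hmem
    exact ih _ hg_deg hg_eval hg_coeff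

section Val

variable {L : Type*} [Field L]

theorem mem_of_isIntegral_int (A : ValuationSubring L) {b : L} (hb : IsIntegral ℤ b) : b ∈ A := by
  have h1 : IsIntegral A b := hb.tower_top
  obtain ⟨y, hy⟩ := IsIntegrallyClosed.isIntegral_iff.mp h1
  rw [← hy]; exact y.2

theorem valuation_int_le_one (A : ValuationSubring L) (u : ℤ) : A.valuation (u : L) ≤ 1 :=
  (A.valuation_le_one_iff _).mpr (mem_of_isIntegral_int A
    (by exact_mod_cast isIntegral_algebraMap (R := ℤ) (A := L) (x := u)))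

theorem mul_mem_nonunits (A : ValuationSubring L) {a b : L} (ha : a ∈ A) (hb : b ∈ A.nonunits) :
    a * b ∈ A.nonunits := by
  rw [ValuationSubring.mem_nonunits_iff] at hb ⊢
  rw [map_mul]
  have hu : A.valuation a ≤ 1 := (A.valuation_le_one_iff _).mpr ha
  calc A.valuation a * A.valuation b ≤ 1 * A.valuation b := by gcongr
    _ = A.valuation b := one_mul _
    _ < 1 := hb

theorem one_not_mem_nonunits (A : ValuationSubring L) : (1 : L) ∉ A.nonunits := by
  intro h2
  rw [ValuationSubring.mem_nonunits_iff, map_one] at h2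
  exact lt_irrefl _ h2

theorem int_not_mem_nonunits (A : ValuationSubring L) {ℓ : ℕ} (hℓ : ℓ.Prime)
    (hA : (ℓ : L) ∈ A.nonunits) {c : ℤ} (hc : ¬ (ℓ : ℤ) ∣ c) : (c : L) ∉ A.nonunits := by
  intro hmem
  have hcop : IsCoprime (ℓ : ℤ) c := by
    rw [Int.isCoprime_iff_gcd_eq_one]
    exact (Nat.Prime.coprime_iff_not_dvd hℓ).mpr (by
      intro h
      exact hc (Int.natCast_dvd.mpr h))
  obtain ⟨u, v, huv⟩ := hcop
  have h1 : ((u * ℓ + v * c : ℤ) : L) = 1 := by rw [huv]; simp
  have h2 : ((u * ℓ + v * c : ℤ) : L) ∈ A.nonunits := by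
    push_cast
    exact A.nonunits.add_mem (mul_mem_nonunits A (mem_of_isIntegral_int A
        (by exact_mod_cast isIntegral_algebraMap (R := ℤ) (A := L) (x := u))) hA)
      (mul_mem_nonunits A (mem_of_isIntegral_int A
        (by exact_mod_cast isIntegral_algebraMap (R := ℤ) (A := L) (x := v))) hmem)
  rw [h1] at h2
  exact one_not_mem_nonunits A h2

def center (A : ValuationSubring L) : Ideal (integralClosure ℤ L) where
  carrier := {b | (b : L) ∈ A.nonunits}
  add_mem' := fun ha hb => A.nonunits.add_mem ha hb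
  zero_mem' := A.nonunits.zero_mem
  smul_mem' := fun c _ hx => mul_mem_nonunits A (mem_of_isIntegral_int A c.2) hx

theorem mem_center (A : ValuationSubring L) (b : integralClosure ℤ L) :
    b ∈ center A ↔ (b : L) ∈ A.nonunits := Iff.rfl

theorem center_isPrime (A : ValuationSubring L) : (center A).IsPrime := by
  refine ⟨?_, ?_⟩
  · intro h
    have : (1 : integralClosure ℤ L) ∈ center A := by rw [h]; trivial
    exact one_not_mem_nonunits A this
  · intro x y hxy
    by_contra hcon
    push Not at hcon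
    obtain ⟨hx, hy⟩ := hcon
    rw [mem_center, ValuationSubring.mem_nonunits_iff] at hx hy hxy
    have hx1 : A.valuation (x : L) = 1 :=
      le_antisymm ((A.valuation_le_one_iff _).mpr (mem_of_isIntegral_int A x.2)) (not_lt.mp hx)
    have hy1 : A.valuation (y : L) = 1 :=
      le_antisymm ((A.valuation_le_one_iff _).mpr (mem_of_isIntegral_int A y.2)) (not_lt.mp hy)
    have : A.valuation ((x * y : integralClosure ℤ L) : L) = 1 := by
      push_cast
      rw [map_mul, hx1, hy1, one_mul]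
    rw [this] at hxy
    exact lt_irrefl _ hxy

theorem center_liesOver (A : ValuationSubring L) {ℓ : ℕ} (hℓ : ℓ.Prime)
    (hA : (ℓ : L) ∈ A.nonunits) : (center A).LiesOver (Ideal.span {(ℓ : ℤ)}) := by
  constructor
  ext n
  rw [Ideal.mem_span_singleton, Ideal.under_def, Ideal.mem_comap, mem_center]
  constructor
  · rintro ⟨k, rfl⟩
    have : ((algebraMap ℤ (integralClosure ℤ L) ((ℓ : ℤ) * k) : integralClosure ℤ L) : L)
        = (k : L) * (ℓ : L) := by
      simp [mul_comm]
    rw [this]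
    exact mul_mem_nonunits A (mem_of_isIntegral_int A
      (by exact_mod_cast isIntegral_algebraMap (R := ℤ) (A := L) (x := k))) hA
  · intro h
    by_contra hcon
    apply int_not_mem_nonunits A hℓ hA hcon
    simpa using h

variable [Algebra ℚ L] [Algebra.IsAlgebraic ℚ L]

theorem exists_mul_eq (A : ValuationSubring L) {ℓ : ℕ} (hℓ : ℓ.Prime) (hA : (ℓ : L) ∈ A.nonunits)
    {x : L} (hx : x ∈ A) :
    ∃ s b : integralClosure ℤ L, (s : L) ∉ A.nonunits ∧ x * (s : L) = (b : L) := by
  have : CharZero L := algebraRat.charZero L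
  have hxalg : IsAlgebraic ℤ x :=
    (IsFractionRing.isAlgebraic_iff ℤ ℚ L).mpr (Algebra.IsAlgebraic.isAlgebraic x)
  obtain ⟨p, hp0, hpx⟩ := hxalg
  have hcont : p.content ≠ 0 := by rwa [Ne, content_eq_zero_iff]
  have hq : aeval x p.primPart = 0 := by
    have h := p.eq_C_content_mul_primPart
    rw [h, map_mul, aeval_C] at hpx
    rcases mul_eq_zero.mp hpx with h0 | h0
    · exfalso
      apply hcont
      simpa using h0
    · exact h0
  have hprim := p.isPrimitive_primPart
  obtain ⟨i, hi⟩ : ∃ i, ¬ (ℓ : ℤ) ∣ p.primPart.coeff i := by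
    by_contra hcon
    push Not at hcon
    have h1 : C (ℓ : ℤ) ∣ p.primPart := (C_dvd_iff_dvd_coeff _ _).mpr hcon
    have hu := hprim _ h1
    rw [Int.isUnit_iff] at hu
    have := hℓ.one_lt
    omega
  have hfx : aeval x (p.primPart.map (algebraMap ℤ (integralClosure ℤ L))) = 0 := by
    rw [aeval_map_algebraMap]; exact hq
  have hcl : ∀ y : L, IsIntegral (integralClosure ℤ L) y →
      ∃ r : integralClosure ℤ L, algebraMap _ L r = y := by
    intro y hy
    exact ⟨⟨y, isIntegral_trans y hy⟩, rfl⟩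
  have hcoeff : ∃ j, (p.primPart.map (algebraMap ℤ (integralClosure ℤ L))).coeff j ∉ center A := by
    refine ⟨i, ?_⟩
    rw [coeff_map, mem_center]
    have := int_not_mem_nonunits A hℓ hA hi
    simpa using this
  rcases seidenberg_aux hcl (center A) x _ _ le_rfl hfx hcoeff with
    ⟨s, b, hs, hsb⟩ | ⟨s, c, hs, hsc⟩
  · exact ⟨s, b, hs, hsb⟩
  · refine ⟨c, s, ?_, hsc.symm⟩
    intro hc
    apply hs
    rw [mem_center]
    have : (s : L) = x * (c : L) := hsc
    rw [this]
    exact mul_mem_nonunits A hx hc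

end Val

section Gal

variable {L : Type*} [Field L] [Algebra ℚ L] [IsGalois ℚ L]

theorem isInvariant_int : Algebra.IsInvariant ℤ (integralClosure ℤ L) (L ≃ₐ[ℚ] L) := by
  constructor
  intro b hb
  have h1 : (b : L) ∈ Set.range (algebraMap ℚ L) := by
    rw [InfiniteGalois.mem_range_algebraMap_iff_fixed]
    intro f
    exact congrArg Subtype.val (hb f)
  obtain ⟨q, hq⟩ := h1
  have hint : IsIntegral ℤ q := by
    have := b.2
    rw [← hq] at this
    exact (isIntegral_algebraMap_iff (algebraMap ℚ L).injective).mp this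
  obtain ⟨n, hn⟩ := IsIntegrallyClosed.isIntegral_iff.mp hint
  refine ⟨n, Subtype.ext ?_⟩
  rw [← hq, ← hn]
  simp

theorem continuousSMul_int :
    @ContinuousSMul (L ≃ₐ[ℚ] L) (integralClosure ℤ L) _ _ ⊥ := by
  let _ : TopologicalSpace (integralClosure ℤ L) := ⊥
  have : DiscreteTopology (integralClosure ℤ L) := ⟨rfl⟩
  rw [continuousSMul_iff_stabilizer_isOpen]
  intro b
  have := stabilizer_isOpen_of_isIntegral (K := ℚ) (L := L) (b : L)
  convert this using 1
  ext g
  simp [MulAction.mem_stabilizer_iff, Subtype.ext_iff]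

omit [Algebra ℚ L] [IsGalois ℚ L] in
theorem exists_frobAlgEquiv (A : ValuationSubring L) {ℓ : ℕ} (hℓ : ℓ.Prime)
    (hA : (ℓ : L) ∈ A.nonunits) :
    haveI := center_isPrime A
    haveI := center_liesOver A hℓ hA
    ∃ φ : (integralClosure ℤ L ⧸ center A) ≃ₐ[ℤ ⧸ Ideal.span {(ℓ : ℤ)}]
        (integralClosure ℤ L ⧸ center A), ∀ x, φ x = x ^ ℓ := by
  have hprime := center_isPrime A
  have hlies := center_liesOver A hℓ hA
  have hPmax : (Ideal.span {(ℓ : ℤ)}).IsMaximal :=
    PrincipalIdealRing.isMaximal_of_irreducible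
      (Nat.prime_iff_prime_int.mp hℓ).irreducible
  have hQmax : (center A).IsMaximal := by
    apply Ideal.isMaximal_of_isIntegral_of_isMaximal_comap (R := ℤ)
    have := hlies.over
    rw [Ideal.under_def] at this
    rw [← this]
    exact hPmax
  let _ : Field (integralClosure ℤ L ⧸ center A) := Ideal.Quotient.field _
  have hchar : CharP (integralClosure ℤ L ⧸ center A) ℓ := by
    rw [CharP.charP_iff_prime_eq_zero hℓ]
    have h1 : ((ℓ : integralClosure ℤ L)) ∈ center A := by
      rw [mem_center]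
      simpa using hA
    have := Ideal.Quotient.eq_zero_iff_mem.mpr h1
    simpa using this
  have : Fact ℓ.Prime := ⟨hℓ⟩
  let _ : Algebra (ZMod ℓ) (integralClosure ℤ L ⧸ center A) := ZMod.algebra _ ℓ
  have halg : Algebra.IsAlgebraic (ZMod ℓ) (integralClosure ℤ L ⧸ center A) := by
    constructor
    intro x
    obtain ⟨b, rfl⟩ := Ideal.Quotient.mk_surjective x
    have h1 : IsIntegral ℤ b := Algebra.IsIntegral.isIntegral b
    have h2 : IsIntegral ℤ (Ideal.Quotient.mk (center A) b) :=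
      h1.map (Ideal.Quotient.mkₐ ℤ (center A))
    exact (h2.tower_top (A := ZMod ℓ)).isAlgebraic
  have hperf : PerfectField (integralClosure ℤ L ⧸ center A) :=
    Algebra.IsAlgebraic.perfectField (ZMod ℓ)
  have hperf' : PerfectRing (integralClosure ℤ L ⧸ center A) ℓ := PerfectField.toPerfectRing ℓ
  refine ⟨AlgEquiv.ofRingEquiv (f := frobeniusEquiv (integralClosure ℤ L ⧸ center A) ℓ) ?_, ?_⟩
  · intro x
    obtain ⟨n, rfl⟩ := Ideal.Quotient.mk_surjective x
    have h1 : Ideal.Quotient.mk (Ideal.span {(ℓ : ℤ)}) n = ((n : ℤ) : ℤ ⧸ Ideal.span {(ℓ : ℤ)}) := by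
      simp
    rw [h1, map_intCast]
    exact map_intCast (frobeniusEquiv (integralClosure ℤ L ⧸ center A) ℓ) n
  · intro x
    rfl

theorem exists_isFrobeniusAt (A : ValuationSubring L) {ℓ : ℕ} (hℓ : ℓ.Prime)
    (hA : (ℓ : L) ∈ A.nonunits) : ∃ σ : L ≃ₐ[ℚ] L, A.IsFrobeniusAt σ ℓ := by
  have hprime := center_isPrime A
  have hlies := center_liesOver A hℓ hA
  obtain ⟨φ, hφ⟩ := exists_frobAlgEquiv A hℓ hA
  let _ : TopologicalSpace (integralClosure ℤ L) := ⊥
  have : DiscreteTopology (integralClosure ℤ L) := ⟨rfl⟩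
  have : ContinuousSMul (L ≃ₐ[ℚ] L) (integralClosure ℤ L) := continuousSMul_int
  have : Algebra.IsInvariant ℤ (integralClosure ℤ L) (L ≃ₐ[ℚ] L) := isInvariant_int
  obtain ⟨⟨σ, hσ⟩, hσφ⟩ := Ideal.Quotient.stabilizerHom_surjective_of_profinite (G := L ≃ₐ[ℚ] L)
    (Ideal.span {(ℓ : ℤ)}) (center A) φ
  have key : ∀ b : integralClosure ℤ L, σ (b : L) - (b : L) ^ ℓ ∈ A.nonunits := by
    intro b
    have h1 := congrArg (fun ψ => ψ (Ideal.Quotient.mk (center A) b)) hσφ
    simp only [Ideal.Quotient.stabilizerHom_apply, hφ] at h1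
    rw [← map_pow, Ideal.Quotient.eq, mem_center] at h1
    simpa using h1
  have hBA : ∀ b : integralClosure ℤ L, (b : L) ∈ A := fun b => mem_of_isIntegral_int A b.2
  have hval_one : ∀ (τ : L ≃ₐ[ℚ] L), τ • center A = center A →
      ∀ s : integralClosure ℤ L, (s : L) ∉ A.nonunits → A.valuation (τ (s : L)) = 1 := by
    intro τ hτ s hs
    have h1 : ((τ • s : integralClosure ℤ L) : L) ∈ A := hBA _
    have h2 : (τ • s : integralClosure ℤ L) ∉ center A := by
      rw [← hτ, Ideal.smul_mem_pointwise_smul_iff]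
      exact hs
    rw [mem_center, ValuationSubring.mem_nonunits_iff] at h2
    exact le_antisymm ((A.valuation_le_one_iff _).mpr h1) (not_lt.mp h2)
  have stab : ∀ τ : L ≃ₐ[ℚ] L, τ • center A = center A → ∀ x ∈ A, τ x ∈ A := by
    intro τ hτ x hx
    obtain ⟨s, b, hs, hsb⟩ := exists_mul_eq A hℓ hA hx
    have h1 : τ x * τ (s : L) = τ (b : L) := by rw [← map_mul, hsb]
    rw [← A.valuation_le_one_iff]
    have h2 : A.valuation (τ x) = A.valuation (τ (b : L)) := by
      rw [← h1, map_mul, hval_one τ hτ s hs, mul_one]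
    rw [h2, A.valuation_le_one_iff]
    exact hBA (τ • b)
  have hσ' : σ • center A = center A := hσ
  have hσinv : σ⁻¹ • center A = center A := by rw [inv_smul_eq_iff, hσ']
  have hσA : σ ∈ A.decompositionSubgroup ℚ := by
    rw [MulAction.mem_stabilizer_iff]
    ext x
    rw [ValuationSubring.mem_smul_pointwise_iff_exists]
    constructor
    · rintro ⟨y, hy, rfl⟩
      exact stab σ hσ' y hy
    · intro hx
      exact ⟨σ⁻¹ x, stab σ⁻¹ hσinv x hx, by simp⟩
  refine ⟨σ, hσA, ?_⟩
  intro x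
  obtain ⟨a, rfl⟩ := IsLocalRing.residue_surjective x
  rw [← IsLocalRing.ResidueField.residue_smul, ← map_pow, ← sub_eq_zero, ← map_sub,
    IsLocalRing.residue_eq_zero_iff, ← ValuationSubring.coe_mem_nonunits_iff]
  obtain ⟨s, b, hs, hsb⟩ := exists_mul_eq A hℓ hA a.2
  have e1 : σ (a : L) * σ (s : L) = σ (b : L) := by rw [← map_mul, hsb]
  have e2 : (a : L) ^ ℓ * (s : L) ^ ℓ = (b : L) ^ ℓ := by rw [← mul_pow, hsb]
  have h1 : (σ (a : L) - (a : L) ^ ℓ) * σ (s : L)
      = (σ (b : L) - (b : L) ^ ℓ) - (a : L) ^ ℓ * (σ (s : L) - (s : L) ^ ℓ) := by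
    linear_combination e1 - e2
  have h2 : (σ (a : L) - (a : L) ^ ℓ) * σ (s : L) ∈ A.nonunits := by
    rw [h1]
    exact sub_mem (key b) (mul_mem_nonunits A (pow_mem a.2 ℓ) (key s))
  rw [ValuationSubring.mem_nonunits_iff, map_mul, hval_one σ hσ' s hs, mul_one] at h2
  rw [ValuationSubring.mem_nonunits_iff]
  exact h2

end Gal

theorem exists_valuationSubring_nonunits {L : Type*} [Field L] [CharZero L] {ℓ : ℕ}
    (hℓ : ℓ.Prime) : ∃ A : ValuationSubring L, (ℓ : L) ∈ A.nonunits := by
  let A0 : Subring L := (Int.castRingHom L).range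
  let l0 : A0 := ⟨(ℓ : L), ⟨(ℓ : ℤ), by simp⟩⟩
  have hI : Ideal.span {l0} ≠ ⊤ := by
    intro h
    have h1 : (1 : A0) ∈ Ideal.span {l0} := by rw [h]; trivial
    rw [Ideal.mem_span_singleton'] at h1
    obtain ⟨⟨c, ⟨n, rfl⟩⟩, hc⟩ := h1
    have h2 : ((n * (ℓ : ℤ) : ℤ) : L) = ((1 : ℤ) : L) := by
      have := congrArg Subtype.val hc
      simpa using this
    have h3 : n * (ℓ : ℤ) = 1 := Int.cast_injective h2
    have h4 : (ℓ : ℤ) ∣ 1 := Dvd.intro_left n h3
    have h5 : ℓ ∣ 1 := by exact_mod_cast h4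
    exact hℓ.one_lt.ne' (Nat.dvd_one.mp h5)
  obtain ⟨B, -, hB⟩ := Ideal.image_subset_nonunits_valuationSubring _ hI
  exact ⟨B, hB ⟨l0, Ideal.subset_span rfl, rfl⟩⟩

theorem isGalois_algebraicClosure_rat : IsGalois ℚ (AlgebraicClosure ℚ) := by
  have h : (DivisionRing.toRatAlgebra : Algebra ℚ (AlgebraicClosure ℚ)) =
      AlgebraicClosure.instAlgebra ℚ := Subsingleton.elim _ _
  rw [h]
  infer_instance

theorem exists_frobenius (ℓ : ℕ) (hℓ : ℓ.Prime) :
    ∃ (A : ValuationSubring (AlgebraicClosure ℚ))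
      (σ : AlgebraicClosure ℚ ≃ₐ[ℚ] AlgebraicClosure ℚ),
      A.LiesOverPrime ℓ ∧ A.IsFrobeniusAt σ ℓ := by
  have := isGalois_algebraicClosure_rat
  obtain ⟨A, hA⟩ := exists_valuationSubring_nonunits (L := AlgebraicClosure ℚ) hℓ
  obtain ⟨σ, hσ⟩ := exists_isFrobeniusAt A hℓ hA
  exact ⟨A, σ, hA, hσ⟩

end Fermat.Agent.S54.H86
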